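import Mathlib
import Fermat.Agent.LT.T2.H32.USCore
import Fermat.Agent.LT.T2.H8.FDCalc
import Fermat.Agent.LT.T2.H187.LevelNhds
import Fermat.Agent.LT.T2.H793.Cpt
import Fermat.Agent.LT.T2.H729.ContrLeaf
import Fermat.Agent.LT.T2.H988.ConjAlg
import Fermat.Agent.LT.T2.H250.FDTop
import Fermat.Agent.LT.T2.H386.SoftCore465
import Fermat.Agent.LT.T2.H868.Count
import Fermat.Agent.LT.T2.H465.LeafInt

/-!
# Row LT, tower T2, leaf T2.23 `LeafT03` (`GPSCoreT` = THE estimate in the class of T5): CLOSED

OFF-MAIN (integration by helper32, architect of T5; SPARE of the rows 1146, 1266, 1438).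

    leafT03_32 (K) : T2.LeafT03 K       -- UNCONDITIONAL, every number field

VERBATIM against `LT/T2/SpecTau.lean` (helper130, sha256 4d2b0fc2).  Nothing new is proved here
except the one-to-one port `USCore.lean`; the mathematics is

* the cut `GPSCoreCut.lean` and T2.23c `leafIntCore465` of helper465,
* T2.23a top `leafFDCore_of250` of helper250, with CONTR `leafContr729` (helper729),
  ALG `leafConjAlg988` (helper988), CPT `leafCpt793` (helper793), US = the proof of helper437
  (with `fdCalcC437_h8` of helper8, `levelNhdsC187` of helper187),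
* T2.23b `leafSoft1Core_386` of helper386,
* THE COUNT `leafCount868` of helper868.
-/

set_option autoImplicit false

open IsDedekindDomain NumberField

noncomputable section

namespace Fermat.Agent.LT.T2.H32

variable (K : Type) [Field K] [NumberField K]

/-- T2.23a.2 `LeafUnifSmoothCore250`, closed. -/
theorem leafUnifSmoothCore32 : H250.LeafUnifSmoothCore250 K :=
  leafUnifSmoothCore_of_leaves32 H8.fdCalcC437_h8 (H187.levelNhdsC187 K) (H793.cptC793 K)

/-- T2.23a `LeafFDCore`, closed. -/
theorem leafFDCore32 : H465.LeafFDCore K :=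
  H250.leafFDCore_of250 (H729.leafContr729 K) (leafUnifSmoothCore32 K) (H988.leafConjAlg988 K)
    (H793.leafCpt793 K)

/-- **T2.23 `LeafT03`, CLOSED**: the estimate `GPSCoreT` for every number field, every level
`𝔫 ≠ 0` and every `K_∞`-type. -/
theorem leafT03_32 : LeafT03 K :=
  H465.leafT03_of_core (leafFDCore32 K) (H386.leafSoft1Core_386 K) (H868.leafCount868 K)
    (H465.leafIntCore465 K)

end Fermat.Agent.LT.T2.H32

end
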